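/-
Row 37 (S43), block OPS (architect helper297), sub-block OPS-T (helper84).
Matrix lemmas for `H1 q M = ±Γ₁(q) ∩ Γ₀(q M)`, `H1 q (M l)`, and the representatives
`repT1 (q M) l : j ↦ (1 j; 0 l), ∞ ↦ σ_l (l 0; 0 1)`, `σ_l = sig (q M) l ∈ Γ₀(q M)` with lower right
entry `l` modulo `q M`.  Port of `S48/BB/T/Mat.lean`, `S48/BB/H/Fam.lean` from `(M, 1)` to `(q, M)`.
-/
import Fermat.Agent.S48.BB.T.Mat
import Fermat.Agent.S48.BB.T.Diamond.Gen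
import Fermat.Agent.S48.BB.H.Fam

set_option autoImplicit false
set_option linter.unusedSectionVars false

namespace Fermat.Agent.S43.Ops

open ModularCurve CongruenceSubgroup Matrix.SpecialLinearGroup ModularForm
open Fermat.Agent.S24 Fermat.Agent.S48.A Fermat.Agent.S48.BB Fermat.Agent.S48.BB.H
open Fermat.Agent.S48.BB.T Fermat.Agent.Lib.HeckeHom
open Fermat.Agent.S48.BB.M (inclH inclH_apply inclH_injective)
open scoped MatrixGroups OnePoint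
open P2MW.S_ModularForm_heckeT_slash_eq_self_of_mem_Gamma0.ModularForm.HeckeSlashInvariance

variable {q M : ℕ}

theorem Gamma0_mul_le_left : Gamma0 (q * M) ≤ Gamma0 q := by
  intro γ hγ
  rw [Gamma0_mem, ZMod.intCast_zmod_eq_zero_iff_dvd] at hγ ⊢
  push_cast at hγ
  exact (Dvd.intro _ rfl).trans hγ

/-- `dd q` only depends on `dd (q M)`. -/
theorem dd_left_of_dd_eq {g γ : SL(2, ℤ)} (h : dd (q * M) g = dd (q * M) γ) : dd q g = dd q γ := by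
  unfold dd at h ⊢
  rw [ZMod.intCast_eq_intCast_iff_dvd_sub] at h ⊢
  push_cast at h
  exact (Dvd.intro _ rfl).trans h

theorem dd_left_eq_one {g : SL(2, ℤ)} (h : dd (q * M) g = 1) : dd q g = 1 := by
  have := dd_left_of_dd_eq (q := q) (M := M) (g := g) (γ := 1) (by rw [h, dd_one])
  rw [this, dd_one]

theorem dd_left_eq_natCast {g : SL(2, ℤ)} {l : ℕ} (h : dd (q * M) g = (l : ZMod (q * M))) :
    dd q g = (l : ZMod q) := by
  unfold dd at h ⊢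
  have h' : ((g 1 1 : ℤ) : ZMod (q * M)) = (((l : ℤ) : ℤ) : ZMod (q * M)) := by
    rw [h]; simp
  have : ((g 1 1 : ℤ) : ZMod q) = (((l : ℤ) : ℤ) : ZMod q) := by
    rw [ZMod.intCast_eq_intCast_iff_dvd_sub] at h' ⊢
    push_cast at h'
    exact (Dvd.intro _ rfl).trans h'
  rw [this]; simp

theorem mem_H1_iff_dd {γ : SL(2, ℤ)} :
    γ ∈ H1 q M ↔ γ ∈ Gamma0 (q * M) ∧ (dd q γ = 1 ∨ dd q γ = -1) := by
  rw [H1, Subgroup.mem_inf, pmGamma1_eq, mem_pmSub]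
  constructor
  · rintro ⟨⟨-, h⟩, h0⟩
    exact ⟨h0, h⟩
  · rintro ⟨h0, h⟩
    exact ⟨⟨Gamma0_mul_le_left h0, h⟩, h0⟩

theorem H1_le_Gamma0_mul : H1 q M ≤ Gamma0 (q * M) := fun _ hγ => (mem_H1_iff_dd.mp hγ).1

/-- `±Γ₁(q M) ≤ ±Γ₁(q) ∩ Γ₀(q M)`. -/
theorem H1_mul_one_le : H1 (q * M) 1 ≤ H1 q M := by
  intro γ hγ
  obtain ⟨h0, h⟩ := mem_H1_one_iff.mp hγ
  refine mem_H1_iff_dd.mpr ⟨h0, ?_⟩
  rcases h with h | h
  · exact Or.inl (dd_left_eq_one h)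
  · right
    have := dd_left_of_dd_eq (q := q) (M := M) (g := γ) (γ := -1) (by rw [h, dd_neg_one])
    rw [this, dd_neg_one]

/-- membership in `H1 q M` only depends on membership in `Γ₀(q M)` and on `dd (q M)`. -/
theorem mem_H1_of_dd_mul_eq {γ g : SL(2, ℤ)} (hγ : γ ∈ H1 q M) (hg : g ∈ Gamma0 (q * M))
    (h : dd (q * M) g = dd (q * M) γ) : g ∈ H1 q M := by
  rw [mem_H1_iff_dd] at hγ ⊢
  exact ⟨hg, by rw [dd_left_of_dd_eq h]; exact hγ.2⟩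

theorem conj_mem_H1_mul {σ γ : SL(2, ℤ)} (hσ : σ ∈ Gamma0 (q * M)) (hγ : γ ∈ H1 q M) :
    σ * γ * σ⁻¹ ∈ H1 q M :=
  mem_H1_of_dd_mul_eq hγ (Subgroup.mul_mem _ (Subgroup.mul_mem _ hσ (H1_le_Gamma0_mul hγ))
    (Subgroup.inv_mem _ hσ)) (dd_conj (q * M) hσ (H1_le_Gamma0_mul hγ))

/-- the elements of `Γ₀(q M)` normalise `H1 q M` -/
theorem nrm_of_mem_Gamma0_mul {σ : SL(2, ℤ)} (hσ : σ ∈ Gamma0 (q * M)) : Nrm (H1 q M) σ := by
  intro γ
  constructor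
  · exact fun hγ => conj_mem_H1_mul hσ hγ
  · intro hγ
    have h := conj_mem_H1_mul (Subgroup.inv_mem _ hσ) hγ
    have e : σ⁻¹ * (σ * γ * σ⁻¹) * σ⁻¹⁻¹ = γ := by group
    rwa [e] at h

/-- two elements of `Γ₀(q M)` with the same `dd q` differ by an element of `H1 q M` -/
theorem mul_inv_mem_H1_of_dd_eq {σ τ : SL(2, ℤ)} (hσ : σ ∈ Gamma0 (q * M))
    (hτ : τ ∈ Gamma0 (q * M)) (h : dd q σ = dd q τ) : σ * τ⁻¹ ∈ H1 q M := by
  rw [mem_H1_iff_dd]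
  refine ⟨Subgroup.mul_mem _ hσ (Subgroup.inv_mem _ hτ), Or.inl ?_⟩
  rw [dd_mul (Gamma0_mul_le_left hσ), h, dd_mul_dd_inv (Gamma0_mul_le_left hτ)]

variable (q M)
variable (l : ℕ)

theorem mem_H1_mul_iff (hl : Nat.Coprime l (q * M)) (γ : SL(2, ℤ)) :
    γ ∈ H1 q (M * l) ↔ γ ∈ H1 q M ∧ (l : ℤ) ∣ γ 1 0 := by
  have hcop : IsCoprime ((q * M : ℕ) : ℤ) (l : ℤ) := Nat.isCoprime_iff_coprime.2 hl.symm
  rw [H1, H1, Subgroup.mem_inf, Subgroup.mem_inf, Gamma0_mem, Gamma0_mem,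
    ZMod.intCast_zmod_eq_zero_iff_dvd, ZMod.intCast_zmod_eq_zero_iff_dvd, and_assoc]
  refine and_congr_right fun _ => ?_
  have e : ((q * (M * l) : ℕ) : ℤ) = ((q * M : ℕ) : ℤ) * (l : ℤ) := by push_cast; ring
  rw [e]
  constructor
  · intro h
    exact ⟨(Dvd.intro _ rfl).trans h, (Dvd.intro_left _ rfl).trans h⟩
  · rintro ⟨h1, h2⟩
    exact hcop.mul_dvd h1 h2

/-- `rep1 l σ` is a Hecke family for `H1 q M` when `l` is a prime not dividing `q M`, `σ ∈ Γ₀(q M)` has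
lower right entry `l` modulo `q M`. -/
theorem isHeckeFamily_rep1_mul [Fact l.Prime] (hl : ¬ l ∣ q * M) {σ : SL(2, ℤ)}
    (hσ : σ ∈ Gamma0 (q * M)) (hσl : dd (q * M) σ = (l : ZMod (q * M))) :
    IsHeckeFamily (inclH (H1 q M)) (rep1 l σ) where
  inj := inclH_injective _
  disj x y g e := by
    refine (isHeckeFamily_T (N := q * M) hl).disj x y
      ⟨(del l σ x)⁻¹ * (g : SL(2, ℤ)) * del l σ y,
        Subgroup.mul_mem _ (Subgroup.mul_mem _ (Subgroup.inv_mem _ (del_mem hσ x))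
          (H1_le_Gamma0_mul g.2)) (del_mem hσ y)⟩ ?_
    rw [incl_apply]
    show heckeRep l x = _ * heckeRep l y
    rw [rep1, rep1, inclH_apply] at e
    rw [map_mul, map_mul, map_inv, mul_assoc, mul_assoc, ← e, inv_mul_cancel_left]
  stable x γ := by
    obtain ⟨g, hg, hdd, hmul⟩ := rep1_mul hl hσ hσl (H1_le_Gamma0_mul γ.2) x
    exact ⟨_, ⟨g, mem_H1_of_dd_mul_eq γ.2 hg hdd⟩, hmul⟩

variable [NeZero (q * M)]

/-- `T_l` is a Hecke family for `H1 q M` when `l` is a prime not dividing `q M`. -/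
theorem isHeckeFamily_T_mul {l : ℕ} (hl : l.Prime) (hlN : ¬ l ∣ q * M) :
    IsHeckeFamily (inclH (H1 q M)) (repT1 (q * M) l) :=
  haveI : Fact l.Prime := ⟨hl⟩
  isHeckeFamily_rep1_mul q M l hlN (sig_mem (q * M) _)
    (dd_sig (isUnit_natCast_of_prime (q * M) hl hlN))

variable [NeZero l]

theorem repT_trans (hl : Nat.Coprime l (q * M)) (x : OnePoint (ZMod l)) :
    ∃ γ ∈ H1 q M, ∃ δ ∈ H1 q M,
      repT1 (q * M) l ∞ * mapGL ℝ γ = mapGL ℝ δ * repT1 (q * M) l x := by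
  obtain ⟨γ, hγ, δ, hδ, h⟩ := repT1_trans (q * M) l hl x
  exact ⟨γ, H1_mul_one_le hγ, δ, H1_mul_one_le hδ, h⟩

omit [NeZero (q * M)] in
private theorem TMat_val_mapGL (γ : SL(2, ℤ)) :
    ((mapGL ℝ γ : GL (Fin 2) ℝ) : Matrix (Fin 2) (Fin 2) ℝ) = γ.1.map (Int.cast : ℤ → ℝ) := by
  ext i j; simp

omit [NeZero (q * M)] in
private theorem TMat_diag_mul_diag (g δ : SL(2, ℤ))
    (h : (!![(l : ℤ), 0; 0, 1] : Matrix (Fin 2) (Fin 2) ℤ) * g.1 = δ.1 * !![(l : ℤ), 0; 0, 1]) :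
    ModularForm.heckeDiagMatrix l * mapGL ℝ g = mapGL ℝ δ * ModularForm.heckeDiagMatrix l := by
  have hp : l ≠ 0 := NeZero.ne l
  apply Units.ext
  rw [Units.val_mul, Units.val_mul, ModularForm.val_heckeDiagMatrix hp,
    TMat_val_mapGL, TMat_val_mapGL]
  have h' := congrArg (fun A : Matrix (Fin 2) (Fin 2) ℤ => A.map (Int.cast : ℤ → ℝ)) h
  simp only [Matrix.map_mul_intCast] at h'
  convert h' using 2
  · ext i k; fin_cases i <;> fin_cases k <;> simp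
  · ext i k; fin_cases i <;> fin_cases k <;> simp

theorem repT_stab (hl : Nat.Coprime l (q * M)) (γ : SL(2, ℤ)) (hγ : γ ∈ H1 q M) :
    γ ∈ H1 q (M * l) ↔
      ∃ δ ∈ H1 q M, repT1 (q * M) l ∞ * mapGL ℝ γ = mapGL ℝ δ * repT1 (q * M) l ∞ := by
  have hp : l ≠ 0 := NeZero.ne l
  have hp' : (l : ℤ) ≠ 0 := by exact_mod_cast hp
  rw [mem_H1_mul_iff q M l hl]
  constructor
  · rintro ⟨-, c', hc'⟩
    have hγ0 : γ ∈ Gamma0 (q * M) := H1_le_Gamma0_mul hγ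
    have hMc : ((q * M : ℕ) : ℤ) ∣ γ 1 0 :=
      (ZMod.intCast_zmod_eq_zero_iff_dvd _ _).mp (Gamma0_mem.mp hγ0)
    have hMc' : ((q * M : ℕ) : ℤ) ∣ c' := by
      have hcop : IsCoprime ((q * M : ℕ) : ℤ) (l : ℤ) := Nat.isCoprime_iff_coprime.2 hl.symm
      rw [hc'] at hMc
      exact hcop.dvd_of_dvd_mul_left hMc
    have hdet : γ 0 0 * γ 1 1 - γ 0 1 * γ 1 0 = 1 := by
      have := γ.2
      rwa [Matrix.det_fin_two] at this
    let γ' : SL(2, ℤ) := ⟨!![γ 0 0, l * γ 0 1; c', γ 1 1], by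
      rw [Matrix.det_fin_two_of]
      rw [hc'] at hdet
      linear_combination hdet⟩
    have hγ'0 : γ' ∈ Gamma0 (q * M) := by
      rw [Gamma0_mem]
      show ((c' : ℤ) : ZMod (q * M)) = 0
      exact (ZMod.intCast_zmod_eq_zero_iff_dvd _ _).mpr hMc'
    have hγ' : γ' ∈ H1 q M := mem_H1_of_dd_mul_eq hγ hγ'0 rfl
    have hmat : (!![(l : ℤ), 0; 0, 1] : Matrix (Fin 2) (Fin 2) ℤ) * γ.1 =
        γ'.1 * !![(l : ℤ), 0; 0, 1] := by
      show (!![(l : ℤ), 0; 0, 1] : Matrix (Fin 2) (Fin 2) ℤ) * γ.1 =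
        !![γ 0 0, l * γ 0 1; c', γ 1 1] * !![(l : ℤ), 0; 0, 1]
      ext i k
      fin_cases i <;> fin_cases k <;> simp [Matrix.mul_apply, Fin.sum_univ_two, hc'] <;> ring
    refine ⟨sig (q * M) (l : ZMod (q * M)) * γ' * (sig (q * M) (l : ZMod (q * M)))⁻¹,
      conj_mem_H1_mul (sig_mem (q * M) _) hγ', ?_⟩
    rw [repT1_infty, mul_assoc, TMat_diag_mul_diag l γ γ' hmat, map_mul, map_mul, map_inv]
    group
  · rintro ⟨δ, -, h⟩
    refine ⟨hγ, ?_⟩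
    set σ := sig (q * M) (l : ZMod (q * M)) with hσ
    set ε : SL(2, ℤ) := σ⁻¹ * δ * σ with hε
    have h1 : ModularForm.heckeDiagMatrix l * mapGL ℝ γ =
        mapGL ℝ ε * ModularForm.heckeDiagMatrix l := by
      rw [repT1_infty, ← hσ] at h
      rw [hε, map_mul, map_mul, map_inv]
      have h2 := congrArg (fun X => (mapGL ℝ σ : GL (Fin 2) ℝ)⁻¹ * X) h
      simp only [← mul_assoc, inv_mul_cancel, one_mul] at h2
      exact h2
    have h3 := congrArg (fun X : GL (Fin 2) ℝ => (X : Matrix (Fin 2) (Fin 2) ℝ) 1 0) h1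
    simp only [Units.val_mul, ModularForm.val_heckeDiagMatrix hp, TMat_val_mapGL,
      Matrix.mul_apply, Fin.sum_univ_two] at h3
    simp at h3
    refine ⟨ε 1 0, ?_⟩
    have h4 : ((γ 1 0 : ℤ) : ℝ) = (((l : ℤ) * ε 1 0 : ℤ) : ℝ) := by
      push_cast
      rw [h3]; ring
    exact_mod_cast h4

theorem isIntLevel_repT [NeZero (q * (M * l))] (x : OnePoint (ZMod l)) :
    IsIntLevel (q * M) (q * (M * l)) ⟨repT1 (q * M) l x, repT1_det_pos (q * M) l x⟩ := by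
  obtain ⟨A, hA, hAe⟩ := isIntLevel_repT1 (q * M) l x
  refine ⟨A, ?_, hAe⟩
  have e1 : ((q * M * 1 : ℕ) : ℤ) = ((q * M : ℕ) : ℤ) := by rw [mul_one]
  have e2 : ((q * M * l : ℕ) : ℤ) = ((q * (M * l) : ℕ) : ℤ) := by rw [mul_assoc]
  rw [← e1, ← e2]
  exact hA

theorem F1Q_le_mul [NeZero (q * (M * l))] : F1Q q M ≤ F1Q q (M * l) := by
  unfold F1Q
  exact sup_le_sup_left (full_degeneracy_le (by rw [← mul_assoc]; exact Dvd.intro _ rfl)) _

end Fermat.Agent.S43.Ops
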