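/-
Row 37 (S43), block OPS (architect helper297), sub-block OPS-T (helper84).
The multiplicative Hecke operators `T_l` (`l` prime, `l ∤ q M`) on `FB (F1Q q M)`, the function field of
`H1 q M = ±Γ₁(q) ∩ Γ₀(q M)`.  Port of `S48/BB/T/Main.lean` from `(M, 1)` to `(q, M)`:
  * `real_heckeTl`    : `real (T_l u) = ∏ x, real u ∘ repT1 (q M) l x`;
  * `dvd_ord_heckeTl` : `T_l` preserves the elements whose divisor is divisible by `n`;
  * `qExpand_heckeTl` : `(T_l u)(q^l) = (⟨l⟩ u)(q^(l²)) ∏_{b<l} u(ζ_l^b q)`, `⟨l⟩ = diaT hL l`,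
    `Psi (⟨l⟩ u) = σ_l⁻¹ • Psi u`, `σ_l = sig (q M) l`.
-/
import Fermat.Agent.S43.Ops.T.Mat
import Fermat.Agent.S48.BB.T.Main

set_option autoImplicit false
set_option linter.unusedSectionVars false

noncomputable section

namespace Fermat.Agent.S43.Ops

open ModularCurve AlgebraicCurve CongruenceSubgroup Matrix.SpecialLinearGroup
open Fermat.Agent.S24 Fermat.Agent.S24.B Fermat.Agent.GAL.Mult Fermat.Agent.S48.A
open Fermat.Agent.S48.BB Fermat.Agent.S48.BB.H Fermat.Agent.S48.BB.T Fermat.Agent.Lib.HeckeHom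
open scoped MatrixGroups OnePoint

variable (q M l : ℕ) [NeZero q] [NeZero M] [NeZero l]

/-- The Hecke data of `T_l` on `±Γ₁(q) ∩ Γ₀(q M)`. -/
def heckeDataT (hL : IsLvl (F1Q q M) (H1 q M) (q * M))
    (hL' : IsLvl (F1Q q (M * l)) (H1 q (M * l)) (q * (M * l))) (hl : Nat.Coprime l (q * M))
    (hfam : IsHeckeFamily (Fermat.Agent.S48.BB.M.inclH (H1 q M)) (repT1 (q * M) l)) :
    HeckeData (F1Q q M) (F1Q q (M * l)) (H1 q M) (H1 q (M * l)) (q * M) (q * (M * l))
      (OnePoint (ZMod l)) where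
  hL := hL
  hL' := hL'
  hF := F1Q_le_mul q M l
  k := l
  hk := mul_assoc q M l
  α := repT1 (q * M) l
  hdet := repT1_det_pos (q * M) l
  hα := hfam
  hint := isIntLevel_repT q M l
  i₀ := ∞
  htrans := repT_trans q M l hl
  hstab := repT_stab q M l hl

variable {q M l}
variable (hL : IsLvl (F1Q q M) (H1 q M) (q * M))
  (hL' : IsLvl (F1Q q (M * l)) (H1 q (M * l)) (q * (M * l))) (hl : Nat.Coprime l (q * M))
  (hfam : IsHeckeFamily (Fermat.Agent.S48.BB.M.inclH (H1 q M)) (repT1 (q * M) l))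

/-- **The multiplicative Hecke operator `T_l` on the function field of `±Γ₁(q) ∩ Γ₀(q M)`.** -/
def heckeTl : FB (F1Q q M) →* FB (F1Q q M) := (heckeDataT q M l hL hL' hl hfam).heckeB

theorem real_heckeTl (u : FB (F1Q q M)) :
    U.real hL (heckeTl hL hL' hl hfam u) =
      ∏ x : OnePoint (ZMod l),
        (⟨repT1 (q * M) l x, repT1_det_pos (q * M) l x⟩ : GL(2, ℝ)⁺)⁻¹ • U.real hL u :=
  (heckeDataT q M l hL hL' hl hfam).real_heckeB u

theorem dvd_ord_heckeTl (n : ℤ) (u : FB (F1Q q M))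
    (hu : ∀ v : Place Kbar (FB (F1Q q M)), n ∣ v.ord u) (v : Place Kbar (FB (F1Q q M))) :
    n ∣ v.ord (heckeTl hL hL' hl hfam u) :=
  (heckeDataT q M l hL hL' hl hfam).dvd_ord_heckeB n u hu v

/-- The diamond operator attached to `d : ZMod (q M)`: `u ↦ u ∘ σ_d`, `σ_d = sig (q M) d`
(it only depends on `d` modulo `q`, up to sign: `diaT_eq_of`). -/
def diaT (d : ZMod (q * M)) : FB (F1Q q M) ≃ₐ[Kbar] FB (F1Q q M) :=
  diam hL (nrm_of_mem_Gamma0_mul (sig_mem (q * M) d))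

theorem Psi_diaT (d : ZMod (q * M)) (u : FB (F1Q q M)) :
    U.Psi hL (diaT hL d u) = (sig (q * M) d)⁻¹ • U.Psi hL u :=
  Psi_diam hL _ u

/-- `diaT hL d` is `u ↦ u ∘ γ` for every `γ ∈ Γ₀(q M)` with lower right entry `d` modulo `q`. -/
theorem Psi_diaT_of {d : ZMod (q * M)} {γ : SL(2, ℤ)} (hγ : γ ∈ Gamma0 (q * M))
    (hγd : dd q γ = dd q (sig (q * M) d)) (u : FB (F1Q q M)) :
    U.Psi hL (diaT hL d u) = γ⁻¹ • U.Psi hL u := by
  have h := diam_congr hL (nrm_of_mem_Gamma0_mul (sig_mem (q * M) d)) (nrm_of_mem_Gamma0_mul hγ)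
    (mul_inv_mem_H1_of_dd_eq (sig_mem (q * M) d) hγ hγd.symm) u
  show U.Psi hL (diam hL _ u) = _
  rw [h, Psi_diam]

/-- an automorphism `D` with `Psi (D u) = γ⁻¹ • Psi u`, `γ ∈ Γ₀(q M)`, `dd q γ = l`, is `diaT hL l`. -/
theorem eq_diaT_of (hlN : IsUnit ((l : ℕ) : ZMod (q * M))) (D : FB (F1Q q M) ≃ₐ[Kbar] FB (F1Q q M))
    {γ : SL(2, ℤ)} (hγ : γ ∈ Gamma0 (q * M)) (hγl : dd q γ = (l : ZMod q))
    (hD : ∀ u, U.Psi hL (D u) = γ⁻¹ • U.Psi hL u) : D = diaT hL (l : ZMod (q * M)) := by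
  refine AlgEquiv.ext fun u => U.Psi_injective hL ?_
  rw [hD, Psi_diaT_of hL hγ (by rw [hγl, dd_left_eq_natCast (dd_sig hlN)])]

theorem isIntLevel_diagT : IsIntLevel (q * M) (q * (M * l))
    ⟨ModularForm.heckeDiagMatrix l, by simpa using ModularForm.det_heckeDiagMatrix_pos l⟩ := by
  refine ⟨!![(l : ℤ), 0; 0, 1], ?_, ?_⟩
  · rw [Matrix.det_fin_two_of]
    push_cast
    refine ⟨1, ?_⟩
    ring
  · show ((ModularForm.heckeDiagMatrix l : GL (Fin 2) ℝ) : Matrix (Fin 2) (Fin 2) ℝ) = _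
    rw [ModularForm.val_heckeDiagMatrix (NeZero.ne l)]
    ext i j
    fin_cases i <;> fin_cases j <;> simp

theorem compLL_repT_infty (u : FB (F1Q q M)) :
    compLL ⟨repT1 (q * M) l ∞, repT1_det_pos (q * M) l ∞⟩ (isIntLevel_repT q M l ∞) (U.Psi hL u) =
      compLL _ (isIntLevel_diagT (q := q) (M := M) (l := l))
        (U.Psi hL (diaT hL (l : ZMod (q * M)) u)) := by
  have h := smul_compLL (isIntLevel_repT q M l ∞) (isIntLevel_diagT (q := q) (M := M) (l := l)) 1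
    (sig (q * M) (l : ZMod (q * M))) (by
      apply Subtype.ext
      simp [repT1_infty, coe_sl]) (U.Psi hL u)
  rw [inv_one, one_smul] at h
  rw [h, Psi_diaT]

/-- **The `q`-expansion of `T_l u`**: `(T_l u)(q^l) = (⟨l⟩ u)(q^(l²)) ∏_{b<l} u(ζ_l^b q)`. -/
theorem qExpand_heckeTl (u : FB (F1Q q M)) :
    qExpand Kbar l ((heckeTl hL hL' hl hfam u : FB (F1Q q M)) : LaurentSeries Kbar) =
      qExpand Kbar (l * l) ((diaT hL (l : ZMod (q * M)) u : FB (F1Q q M)) : LaurentSeries Kbar) *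
        ∏ b ∈ Finset.range l, twist (zetaK l ^ b) (u : LaurentSeries Kbar) := by
  set X := heckeDataT q M l hL hL' hl hfam with hX
  have hN : q * M * l = q * (M * l) := mul_assoc q M l
  apply ModularCurve.qExpand_injective (R := Kbar) (q * M)
  have h1 := congrArg (texpLL (q * (M * l))) (X.Psi_heckeB u)
  rw [U.texpLL_Psi, map_prod, HeckeBridge.prod_onePoint] at h1
  have hinf : texpLL (q * (M * l)) (compLL (X.a ∞) (X.hint ∞) (U.Psi X.hL u)) =
      qExpand Kbar (q * M) (qExpand Kbar (l * l)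
        ((diaT hL (l : ZMod (q * M)) u : FB (F1Q q M)) : LaurentSeries Kbar)) := by
    have h2 := compLL_repT_infty (l := l) hL u
    have h3 : compLL (X.a ∞) (X.hint ∞) (U.Psi X.hL u) =
      compLL ⟨repT1 (q * M) l ∞, repT1_det_pos (q * M) l ∞⟩ (isIntLevel_repT q M l ∞)
        (U.Psi hL u) := rfl
    rw [h3, h2]
    exact texpLL_compLL_diag hL hN _ rfl _
  have hfin : ∀ j : ZMod l, texpLL (q * (M * l)) (compLL (X.a (j : OnePoint (ZMod l)))
      (X.hint (j : OnePoint (ZMod l))) (U.Psi X.hL u)) =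
      qExpand Kbar (q * M) (twist (zetaK l ^ j.val) (u : LaurentSeries Kbar)) := by
    intro j
    exact texpLL_compLL_upper hL hN _ j.val (repT1_coe (q * M) l j) u
  rw [hinf, Finset.prod_congr rfl (fun j _ => hfin j),
    HeckeBridge.prod_zmod_val l (fun b => qExpand Kbar (q * M)
      (twist (zetaK l ^ b) (u : LaurentSeries Kbar))), ← map_prod, ← map_mul] at h1
  rw [← h1, Main_qExpand_qExpand]
  exact Main_qExpand_congr hN _

end Fermat.Agent.S43.Ops

end
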