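/-
Row 37 (S43), block OPS (architect helper297), sub-block OPS-T (helper84).
The automorphisms `u ↦ u ∘ σ`, `σ ∈ Γ₀(q M)`, of `FB (F1Q q M)` are defined over `ℚ`.
Port of `diamondAut_gal` (`S48/BB/T/Diamond.lean`, `DiamondP.lean`) from `(M, 1)` to `(q, M)`.
-/
import Fermat.Agent.S43.Ops.T.Main
import Fermat.Agent.S48.BB.P.LL
import Fermat.Agent.S48.BB.U.Gen
import Fermat.Agent.S48.BB.E.Defs

set_option autoImplicit false
set_option linter.unusedSectionVars false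

noncomputable section

namespace Fermat.Agent.S43.Ops

open ModularCurve AlgebraicCurve CongruenceSubgroup Matrix.SpecialLinearGroup
open Fermat.Agent.S24 Fermat.Agent.GAL.Mult Fermat.Agent.S48.A Fermat.Agent.S48.BB
open Fermat.Agent.S48.BB.H Fermat.Agent.S48.BB.T Fermat.Agent.S48.BB.U
open scoped MatrixGroups

/-- rational elements of `FB F₀` -/
def IsRatB {F₀ : IntermediateField ℚ (LaurentSeries ℚ)} (x : FB F₀) : Prop :=
  ∃ f : LaurentSeries ℚ, (x : LaurentSeries Kbar) = coeffEmb Kbar f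

theorem gal_of_isRatB {F₀ : IntermediateField ℚ (LaurentSeries ℚ)} {x : FB F₀}
    (hx : IsRatB x) (σ : Kbar ≃ₐ[ℚ] Kbar) : arithmeticRingAut F₀ σ x = x := by
  obtain ⟨f, hf⟩ := hx
  apply Subtype.ext
  rw [coe_arithmeticRingAut_apply, hf, coeffMap_coeffEmb]

theorem isRatB_ofQ {F₀ : IntermediateField ℚ (LaurentSeries ℚ)} (f : F₀) :
    IsRatB (ofQ f) := ⟨f.1, rfl⟩

/-- if `D` maps a set of generators of `F₀` to rational elements, then it maps `F₀` to rational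
elements -/
theorem isRatB_of_gen {F₀ : IntermediateField ℚ (LaurentSeries ℚ)}
    (D : FB F₀ ≃ₐ[Kbar] FB F₀) (S : Set (LaurentSeries ℚ)) (hS : F₀ = IntermediateField.adjoin ℚ S)
    (h : ∀ f : F₀, f.1 ∈ S → IsRatB (D (ofQ f))) (f : F₀) : IsRatB (D (ofQ f)) := by
  obtain ⟨y, hy⟩ := f
  have key : ∀ (y : LaurentSeries ℚ), y ∈ IntermediateField.adjoin ℚ S → ∀ hy : y ∈ F₀,
      IsRatB (D (ofQ ⟨y, hy⟩)) := by
    intro y hy'
    induction hy' using IntermediateField.adjoin_induction with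
    | mem y hyS => exact fun hy => h ⟨y, hy⟩ hyS
    | algebraMap c =>
      intro hy
      have h1 : (ofQ ⟨algebraMap ℚ (LaurentSeries ℚ) c, hy⟩ : FB F₀) =
          algebraMap Kbar (FB F₀) (algebraMap ℚ Kbar c) := by
        apply Subtype.ext
        show coeffEmb Kbar (algebraMap ℚ (LaurentSeries ℚ) c) =
          algebraMap Kbar (LaurentSeries Kbar) (algebraMap ℚ Kbar c)
        exact Formal.coeffEmb_algebraMap c
      rw [h1, AlgEquiv.commutes, ← h1]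
      exact isRatB_ofQ _
    | add a b ha hb h1 h2 =>
      intro hy
      obtain ⟨a', ha'⟩ := h1 (hS ▸ ha)
      obtain ⟨b', hb'⟩ := h2 (hS ▸ hb)
      have h3 : (ofQ ⟨a + b, hy⟩ : FB F₀) = ofQ ⟨a, hS ▸ ha⟩ + ofQ ⟨b, hS ▸ hb⟩ :=
        Subtype.ext (map_add (coeffEmb Kbar) a b)
      refine ⟨a' + b', ?_⟩
      rw [h3, map_add, map_add, ← ha', ← hb']
      rfl
    | inv a ha h1 =>
      intro hy
      obtain ⟨a', ha'⟩ := h1 (hS ▸ ha)
      have h3 : (ofQ ⟨a⁻¹, hy⟩ : FB F₀) = (ofQ ⟨a, hS ▸ ha⟩)⁻¹ :=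
        Subtype.ext (map_inv₀ (coeffEmb Kbar) a)
      refine ⟨a'⁻¹, ?_⟩
      rw [h3, map_inv₀, map_inv₀, ← ha']
      rfl
    | mul a b ha hb h1 h2 =>
      intro hy
      obtain ⟨a', ha'⟩ := h1 (hS ▸ ha)
      obtain ⟨b', hb'⟩ := h2 (hS ▸ hb)
      have h3 : (ofQ ⟨a * b, hy⟩ : FB F₀) = ofQ ⟨a, hS ▸ ha⟩ * ofQ ⟨b, hS ▸ hb⟩ :=
        Subtype.ext (map_mul (coeffEmb Kbar) a b)
      refine ⟨a' * b', ?_⟩
      rw [h3, map_mul, map_mul, ← ha', ← hb']
      rfl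
  exact key y (hS ▸ hy) hy

/-- an automorphism mapping `F₀` to rational elements commutes with the Galois action -/
theorem gal_of_isRatB_ofQ {F₀ : IntermediateField ℚ (LaurentSeries ℚ)}
    (D : FB F₀ ≃ₐ[Kbar] FB F₀) (h : ∀ f : F₀, IsRatB (D (ofQ f))) (σ : Kbar ≃ₐ[ℚ] Kbar)
    (u : FB F₀) : D (arithmeticRingAut F₀ σ u) = arithmeticRingAut F₀ σ (D u) := by
  induction u using FB_induction with
  | hQ f => rw [gal_of_isRatB (isRatB_ofQ f), gal_of_isRatB (h f)]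
  | hc c => rw [arithmeticRingAut_algebraMap, AlgEquiv.commutes, AlgEquiv.commutes,
      arithmeticRingAut_algebraMap]
  | hadd f g hf hg => rw [map_add, map_add, map_add, map_add, hf, hg]
  | hmul f g hf hg => rw [map_mul, map_mul, map_mul, map_mul, hf, hg]
  | hinv f hf => rw [map_inv₀, map_inv₀, map_inv₀, map_inv₀, hf]

theorem F1Q_eq_adjoin (M r : ℕ) [NeZero (M * r)] :
    F1Q M r = IntermediateField.adjoin ℚ
      (Set.range (uQ M) ∪ (modularFunctionFieldFull (M * r) : Set (LaurentSeries ℚ))) := by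
  rw [IntermediateField.adjoin_union, IntermediateField.adjoin_self]
  rfl

variable {q M : ℕ} [NeZero q] [NeZero M] (hL : IsLvl (F1Q q M) (H1 q M) (q * M))

/-- the elements of level `Γ₀(q M)` are fixed by `u ↦ u ∘ σ`, `σ ∈ Γ₀(q M)` -/
theorem diam_fix_full {σ : SL(2, ℤ)} (hσ : σ ∈ Gamma0 (q * M)) (f : F1Q q M)
    (hf : f.1 ∈ modularFunctionFieldFull (q * M)) :
    diam hL (nrm_of_mem_Gamma0_mul hσ) (ofQ f) = ofQ f := by
  apply Psi_injective hL
  rw [Psi_diam]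
  have h1 : Psi hL (ofQ f) =
      PsiL (q * M) ⟨coeffEmb Kbar f.1, coeffEmb_mem_laurentBaseChange Kbar hf⟩ := by
    rw [Psi_eq_iff, texpLL_PsiL]
    rfl
  rw [h1]
  exact smul_PsiL_of_mem_Gamma0 _ (Subgroup.inv_mem _ hσ) _

/-- **The automorphisms `u ↦ u ∘ σ`, `σ ∈ Γ₀(q M)`, are defined over `ℚ`.** -/
theorem diam_gal {σ : SL(2, ℤ)} (hσ : σ ∈ Gamma0 (q * M)) (τ : Kbar ≃ₐ[ℚ] Kbar)
    (u : FB (F1Q q M)) :
    diam hL (nrm_of_mem_Gamma0_mul hσ) (arithmeticRingAut (F1Q q M) τ u) =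
      arithmeticRingAut (F1Q q M) τ (diam hL (nrm_of_mem_Gamma0_mul hσ) u) := by
  refine gal_of_isRatB_ofQ _ (isRatB_of_gen _ _ (F1Q_eq_adjoin q M) ?_) τ u
  rintro f (⟨a, ha⟩ | hf)
  · have hr : Realises (q * M) (Psi hL (ofQ f)) (uQ q a) := by
      rw [ha]
      exact realises_Psi_ofQ hL f
    have hf₁ : Realises (q * M) (σ⁻¹ • Psi hL (ofQ f)) (uQ q (a * ((σ 0 0 : ℤ) : ZMod q))) := by
      rw [realises_unique hr (P.realises_uaLL q M a),
        P.inv_smul_uaLL q M a σ (Gamma0_mul_le_left hσ)]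
      exact P.realises_uaLL q M _
    refine ⟨uQ q (a * ((σ 0 0 : ℤ) : ZMod q)), ?_⟩
    rw [← Psi_diam hL (nrm_of_mem_Gamma0_mul hσ)] at hf₁
    unfold Realises at hf₁
    rw [texpLL_Psi] at hf₁
    exact qExpand_injective (R := Kbar) (N := q * M) hf₁
  · rw [diam_fix_full hL hσ f hf]
    exact isRatB_ofQ f

theorem galF_diaT (d : ZMod (q * M)) (τ : Fermat.Agent.GAL.E.GQ) (u : FB (F1Q q M)) :
    E.galF (F1Q q M) τ (diaT hL d u) = diaT hL d (E.galF (F1Q q M) τ u) :=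
  (diam_gal hL (sig_mem (q * M) d) τ u).symm

end Fermat.Agent.S43.Ops

end
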