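/-
Row 37 (S43), block OPS (architect helper297), sub-block OPS-T (helper84).  **DELIVERABLE OF OPS-T.**
`heckeOpT q M hl hlN : E.HeckeOp1 (F1Q q M) l` for `l` prime, `l ∤ q M`:
  * `T = heckeTl …`, with the product formula `real_heckeOpT` (representatives `repT1 (q M) l`:
    `j ↦ (1 j; 0 l)`, `∞ ↦ σ_l (l 0; 0 1)`, `σ_l = sig (q M) l`);
  * `D = diaT hL l`, `Psi (D u) = γ⁻¹ • Psi u` for EVERY `γ ∈ Γ₀(q M)` with lower right entry `l` modulo `q`
    (`Psi_heckeOpT_D_of`); any automorphism with this property is `D` (`heckeOpT_D_eq`).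
No hypothesis is left: `hL = W.isLvl_F1Q q M`.
-/
import Fermat.Agent.S43.Ops.T.Rat
import Fermat.Agent.S48.BB.E.HeckeOp1
import Fermat.Agent.S48.BB.W.Lvl

set_option autoImplicit false
set_option linter.unusedSectionVars false

noncomputable section

namespace Fermat.Agent.S43.Ops

open ModularCurve AlgebraicCurve CongruenceSubgroup
open Fermat.Agent.S24 Fermat.Agent.S24.B Fermat.Agent.GAL.Mult Fermat.Agent.S48.A
open Fermat.Agent.S48.BB Fermat.Agent.S48.BB.H Fermat.Agent.S48.BB.T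
open scoped MatrixGroups OnePoint

variable (q M : ℕ) [NeZero q] [NeZero M] {l : ℕ} [NeZero l]

/-- **The Hecke operator `T_l` with its diamond, on the function field of `±Γ₁(q) ∩ Γ₀(q M)`.** -/
def heckeOpT (hl : l.Prime) (hlN : ¬ l ∣ q * M) : E.HeckeOp1 (F1Q q M) l where
  T := heckeTl (W.isLvl_F1Q q M) (W.isLvl_F1Q q (M * l))
    ((Nat.Prime.coprime_iff_not_dvd hl).2 hlN) (isHeckeFamily_T_mul q M hl hlN)
  D := diaT (W.isLvl_F1Q q M) (l : ZMod (q * M))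
  qExpand_T := qExpand_heckeTl (W.isLvl_F1Q q M) (W.isLvl_F1Q q (M * l)) _ _
  galF_D := fun σ u => galF_diaT (W.isLvl_F1Q q M) (l : ZMod (q * M)) σ u
  isKum := fun n u hu => dvd_ord_heckeTl (W.isLvl_F1Q q M) (W.isLvl_F1Q q (M * l)) _ _ (n : ℤ) u hu

theorem heckeOpT_D (hl : l.Prime) (hlN : ¬ l ∣ q * M) :
    (heckeOpT q M hl hlN).D = diaT (W.isLvl_F1Q q M) (l : ZMod (q * M)) := rfl

theorem Psi_heckeOpT_D (hl : l.Prime) (hlN : ¬ l ∣ q * M) (u : FB (F1Q q M)) :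
    U.Psi (W.isLvl_F1Q q M) ((heckeOpT q M hl hlN).D u) =
      (sig (q * M) (l : ZMod (q * M)))⁻¹ • U.Psi (W.isLvl_F1Q q M) u :=
  Psi_diaT _ _ u

/-- `D u = u ∘ γ` for every `γ ∈ Γ₀(q M)` with lower right entry `l` modulo `q`. -/
theorem Psi_heckeOpT_D_of (hl : l.Prime) (hlN : ¬ l ∣ q * M) {γ : SL(2, ℤ)}
    (hγ : γ ∈ Gamma0 (q * M)) (hγl : dd q γ = (l : ZMod q)) (u : FB (F1Q q M)) :
    U.Psi (W.isLvl_F1Q q M) ((heckeOpT q M hl hlN).D u) = γ⁻¹ • U.Psi (W.isLvl_F1Q q M) u :=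
  Psi_diaT_of _ hγ
    (by rw [hγl, dd_left_eq_natCast (dd_sig (isUnit_natCast_of_prime (q * M) hl hlN))]) u

/-- characterisation of the diamond operator of `heckeOpT` -/
theorem heckeOpT_D_eq (hl : l.Prime) (hlN : ¬ l ∣ q * M)
    (D : FB (F1Q q M) ≃ₐ[Kbar] FB (F1Q q M)) {γ : SL(2, ℤ)} (hγ : γ ∈ Gamma0 (q * M))
    (hγl : dd q γ = (l : ZMod q))
    (hD : ∀ u, U.Psi (W.isLvl_F1Q q M) (D u) = γ⁻¹ • U.Psi (W.isLvl_F1Q q M) u) :
    (heckeOpT q M hl hlN).D = D :=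
  (eq_diaT_of _ (isUnit_natCast_of_prime (q * M) hl hlN) D hγ hγl hD).symm

/-- **The product formula.** -/
theorem real_heckeOpT (hl : l.Prime) (hlN : ¬ l ∣ q * M) (u : FB (F1Q q M)) :
    U.real (W.isLvl_F1Q q M) ((heckeOpT q M hl hlN).T u) =
      ∏ x : OnePoint (ZMod l),
        (⟨repT1 (q * M) l x, repT1_det_pos (q * M) l x⟩ : GL(2, ℝ)⁺)⁻¹ •
          U.real (W.isLvl_F1Q q M) u :=
  real_heckeTl _ _ _ _ u

/-- the Hecke family used by `heckeOpT` (interface with the cohomological side, `Lib/HeckeHom`) -/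
theorem isHeckeFamily_heckeOpT (hl : l.Prime) (hlN : ¬ l ∣ q * M) :
    Fermat.Agent.Lib.HeckeHom.IsHeckeFamily (Fermat.Agent.S48.BB.M.inclH (H1 q M))
      (repT1 (q * M) l) :=
  isHeckeFamily_T_mul q M hl hlN

end Fermat.Agent.S43.Ops

end
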