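/-
Row 37 (S43), block OPS, sub-block OPS-T (helper84).  Bridge between `heckeOpT` (`Ops/T/Final`) and the diamond action
`dia q M` (`Ops/Dia`, helper297): the diamond of `heckeOpT q M hl hlN` is `dia q M ⟨l⟩`.
-/
import Fermat.Agent.S43.Ops.T.Final
import Fermat.Agent.S43.Ops.Dia

set_option autoImplicit false
set_option linter.unusedSectionVars false

noncomputable section

namespace Fermat.Agent.S43.Ops

open ModularCurve AlgebraicCurve CongruenceSubgroup
open Fermat.Agent.S24 Fermat.Agent.S24.B Fermat.Agent.GAL.Mult Fermat.Agent.S48.A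
open Fermat.Agent.S48.BB Fermat.Agent.S48.BB.H Fermat.Agent.S48.BB.T
open scoped MatrixGroups OnePoint

variable (q M : ℕ) [NeZero q] [NeZero M] {l : ℕ} [NeZero l]

theorem coprime_left_of_not_dvd_mul (hl : l.Prime) (hlN : ¬ l ∣ q * M) : Nat.Coprime l q :=
  (Nat.Prime.coprime_iff_not_dvd hl).2 fun h => hlN (h.mul_right M)

/-- the class of `l` in `(ZMod q)ˣ` -/
def unitL (hl : l.Prime) (hlN : ¬ l ∣ q * M) : (ZMod q)ˣ :=
  ZMod.unitOfCoprime l (coprime_left_of_not_dvd_mul q M hl hlN)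

theorem coe_unitL (hl : l.Prime) (hlN : ¬ l ∣ q * M) :
    ((unitL q M hl hlN : (ZMod q)ˣ) : ZMod q) = (l : ZMod q) :=
  ZMod.coe_unitOfCoprime l _

/-- **The diamond of `heckeOpT` is `⟨l⟩`.** -/
theorem heckeOpT_D_eq_dia (hl : l.Prime) (hlN : ¬ l ∣ q * M) :
    (heckeOpT q M hl hlN).D = dia q M (unitL q M hl hlN) :=
  heckeOpT_D_eq q M hl hlN _ (sg_mem q M (unitL q M hl hlN))
    (by rw [dd_sg, coe_unitL])
    (fun u => Psi_dia_of _ (sg_mem q M _) (dd_sg q M _) u)

end Fermat.Agent.S43.Ops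

end
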