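/-
Row 37 (S43), block OPS, sub-block OPS-T (helper45).  `T_l` AND `T_l'` COMMUTE (operators WITH diamonds).
Generic in `F₀`: for `H : HeckeOp1 F₀ ℓ`, `H' : HeckeOp1 F₀ ℓ'`, `ℓ`, `ℓ'` coprime, whose diamonds commute with each other
and with the other Hecke operator, `H.T ∘ H'.T = H'.T ∘ H.T` (formal, from the `q`-expansion formulas), hence
`Commute (H.TW n) (H'.TW n)` on the Kummer modules.  Instance: `heckeOpT q M` on `F1Q q M` (no hypothesis left),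
including the case `l = l'`.   This is the field `t_comm` of `Glue.FreeRaw` at level `H` (and `tb` of `H5Inst`).
-/
import Fermat.Agent.GAL.E.HeckeComm
import Fermat.Agent.S43.Triv.Inst

set_option autoImplicit false

noncomputable section

namespace Fermat.Agent.S43.Ops

open ModularCurve AlgebraicCurve Fermat.Agent.S24 Fermat.Agent.S24.B Fermat.Agent.S48.BB
  Fermat.Agent.S48.BB.M Fermat.Agent.S48.BB.E
open Fermat.Agent.GAL.E (GQ qExpand_injective')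
open Fermat.Agent.GAL.E.HeckeComm

section Series

variable {C : Type*} [Field C]

/-- The common value of `(T_ℓ T_ℓ' u)(q^(ℓ ℓ'))`, with diamonds: `u' = D' u`, `u₂ = D u`, `u'' = D' D u`,
`v = T' u`, `v₂ = D T' u = T' D u`, `w = T T' u`. -/
theorem comm_key {ℓ ℓ' : ℕ} [NeZero ℓ] [NeZero ℓ'] (hc : Nat.Coprime ℓ ℓ') (z z' : Cˣ)
    (hz : z ^ ℓ = 1) (u u' u₂ u'' v v₂ w : LaurentSeries C)
    (hv : qExpand C ℓ' v = qExpand C (ℓ' * ℓ') u' * ∏ b ∈ Finset.range ℓ', twist (z' ^ b) u)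
    (hv₂ : qExpand C ℓ' v₂ = qExpand C (ℓ' * ℓ') u'' * ∏ b ∈ Finset.range ℓ', twist (z' ^ b) u₂)
    (hw : qExpand C ℓ w = qExpand C (ℓ * ℓ) v₂ * ∏ b ∈ Finset.range ℓ, twist (z ^ b) v) :
    qExpand C ℓ' (qExpand C ℓ w) =
      qExpand C (ℓ * ℓ) (qExpand C (ℓ' * ℓ') u'') *
        (∏ b' ∈ Finset.range ℓ', qExpand C (ℓ * ℓ) (twist (z' ^ b') u₂)) *
        ((∏ b ∈ Finset.range ℓ, twist (z ^ b) (qExpand C (ℓ' * ℓ') u')) *
          ∏ b ∈ Finset.range ℓ, ∏ b' ∈ Finset.range ℓ', twist (z ^ b * z' ^ b') u) := by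
  rw [hw, map_mul, qExpand_comm ℓ' (ℓ * ℓ) v₂, hv₂, map_mul, map_prod, map_prod]
  congr 1
  rw [← prod_twist_qExpand hc.symm z hz v, ← Finset.prod_mul_distrib]
  refine Finset.prod_congr rfl fun b _ => ?_
  rw [hv, map_mul, map_prod]
  congr 1
  exact Finset.prod_congr rfl fun b' _ => twist_twist _ _ _

end Series

variable {F₀ : IntermediateField ℚ (LaurentSeries ℚ)}

/-- **`T_ℓ` and `T_ℓ'` commute** (operators with diamonds). -/
theorem heckeOp1_T_comm {ℓ ℓ' : ℕ} [NeZero ℓ] [NeZero ℓ'] (hc : Nat.Coprime ℓ ℓ')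
    (H : HeckeOp1 F₀ ℓ) (H' : HeckeOp1 F₀ ℓ')
    (hDD : ∀ u, H.D (H'.D u) = H'.D (H.D u))
    (hDT : ∀ u, H.D (H'.T u) = H'.T (H.D u)) (hDT' : ∀ u, H'.D (H.T u) = H.T (H'.D u))
    (u : FB F₀) : H.T (H'.T u) = H'.T (H.T u) := by
  apply Subtype.ext
  apply qExpand_injective' (R := Kbar) ℓ
  apply qExpand_injective' (R := Kbar) ℓ'
  have hz : zetaK ℓ ^ ℓ = 1 := (isPrimitiveRoot_zetaK ℓ).pow_eq_one
  have hz' : zetaK ℓ' ^ ℓ' = 1 := (isPrimitiveRoot_zetaK ℓ').pow_eq_one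
  have e1 := H'.qExpand_T (H.D u)
  rw [← hDT] at e1
  have e2 := H.qExpand_T (H'.D u)
  rw [← hDT', hDD] at e2
  have h1 := comm_key hc (zetaK ℓ) (zetaK ℓ') hz (u : LaurentSeries Kbar) _ _ _ _ _ _
    (H'.qExpand_T u) e1 (H.qExpand_T (H'.T u))
  have h2 := comm_key hc.symm (zetaK ℓ') (zetaK ℓ) hz' (u : LaurentSeries Kbar) _ _ _ _ _ _
    (H.qExpand_T u) e2 (H'.qExpand_T (H.T u))
  rw [h1, qExpand_comm ℓ' ℓ, h2, qExpand_comm (ℓ * ℓ) (ℓ' * ℓ'),
    prod_twist_qExpand (Nat.Coprime.mul_left hc.symm hc.symm) (zetaK ℓ) hz,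
    prod_twist_qExpand (Nat.Coprime.mul_left hc hc) (zetaK ℓ') hz', Finset.prod_comm]
  have h3 : ∀ b' ∈ Finset.range ℓ', ∀ b ∈ Finset.range ℓ,
      twist (zetaK ℓ ^ b * zetaK ℓ' ^ b') (u : LaurentSeries Kbar) =
        twist (zetaK ℓ' ^ b' * zetaK ℓ ^ b) (u : LaurentSeries Kbar) := fun b' _ b _ => by
    rw [mul_comm]
  rw [Finset.prod_congr rfl fun b' hb' => Finset.prod_congr rfl (h3 b' hb')]
  ring

theorem heckeOp1_commute_TW {ℓ ℓ' : ℕ} [NeZero ℓ] [NeZero ℓ'] (hc : Nat.Coprime ℓ ℓ')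
    (H : HeckeOp1 F₀ ℓ) (H' : HeckeOp1 F₀ ℓ')
    (hDD : ∀ u, H.D (H'.D u) = H'.D (H.D u))
    (hDT : ∀ u, H.D (H'.T u) = H'.T (H.D u)) (hDT' : ∀ u, H'.D (H.T u) = H.T (H'.D u))
    (n : ℕ) : Commute (H.TW n) (H'.TW n) := by
  refine AddMonoidHom.ext fun x => ?_
  obtain ⟨u, rfl⟩ := cls_surjective x
  show H.TW n (H'.TW n (cls u)) = H'.TW n (H.TW n (cls u))
  rw [H'.TW_cls, H.TW_cls, H.TW_cls, H'.TW_cls]
  refine congrArg cls (Subtype.ext (Units.ext ?_))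
  exact heckeOp1_T_comm hc H H' hDD hDT hDT' _

/-- a `ℚ̄`-automorphism commuting with `T` commutes with `TW` -/
theorem heckeOp1_commute_TW_autW {ℓ : ℕ} [NeZero ℓ] (H : HeckeOp1 F₀ ℓ)
    (D : FB F₀ ≃ₐ[Kbar] FB F₀) (hD : ∀ u, H.T (D u) = D (H.T u)) (n : ℕ) :
    Commute (H.TW n) (autW D n) := by
  refine AddMonoidHom.ext fun x => ?_
  obtain ⟨u, rfl⟩ := cls_surjective x
  show H.TW n (autW D n (cls u)) = autW D n (H.TW n (cls u))
  rw [autW_cls, H.TW_cls, H.TW_cls, autW_cls]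
  refine congrArg cls (Subtype.ext (Units.ext ?_))
  exact hD _

/-! ### the instance `F1Q q M` -/

section Inst

variable {q M : ℕ} [NeZero q] [NeZero M] {l l' : ℕ} [NeZero l] [NeZero l']

/-- `T_l` commutes with the diamond operators, on the Kummer modules. -/
theorem commute_heckeOpT_TW_dia (hl : l.Prime) (hlN : ¬ l ∣ q * M) (d : (ZMod q)ˣ) (n : ℕ) :
    Commute ((heckeOpT q M hl hlN).TW n) (autW (dia q M d) n) :=
  heckeOp1_commute_TW_autW _ _ (fun u => Triv.T_dia hl hlN d u) n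

/-- the diamond operators commute, on the Kummer modules. -/
theorem commute_autW_dia (d d' : (ZMod q)ˣ) (n : ℕ) :
    Commute (autW (dia q M d) n) (autW (dia q M d') n) := by
  show autW (dia q M d) n * autW (dia q M d') n = autW (dia q M d') n * autW (dia q M d) n
  rw [← autW_mul, ← autW_mul, ← map_mul, ← map_mul, mul_comm]

/-- **`T_l` and `T_l'` commute on `FB (F1Q q M)`.** -/
theorem heckeOpT_T_comm (hl : l.Prime) (hlN : ¬ l ∣ q * M) (hl' : l'.Prime)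
    (hlN' : ¬ l' ∣ q * M) (hne : l ≠ l') (u : FB (F1Q q M)) :
    (heckeOpT q M hl hlN).T ((heckeOpT q M hl' hlN').T u) =
      (heckeOpT q M hl' hlN').T ((heckeOpT q M hl hlN).T u) := by
  refine heckeOp1_T_comm ((Nat.coprime_primes hl hl').2 hne) _ _ (fun u => ?_) (fun u => ?_)
    (fun u => ?_) u
  · rw [Triv.heckeOpT_D_eq_dia hl hlN, Triv.heckeOpT_D_eq_dia hl' hlN', Triv.diaD_dia,
      Triv.diaD_dia]
    have h := DFunLike.congr_fun (congrArg (dia q M)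
      (mul_comm (Triv.unitL hl hlN) (Triv.unitL hl' hlN'))) u
    rwa [map_mul, map_mul] at h
  · rw [Triv.heckeOpT_D_eq_dia hl hlN]
    exact (Triv.T_dia hl' hlN' _ u).symm
  · rw [Triv.heckeOpT_D_eq_dia hl' hlN']
    exact (Triv.T_dia hl hlN _ u).symm

/-- **`T_l` and `T_l'` commute on `W1 (F1Q q M) n`** (`l = l'` allowed). -/
theorem commute_heckeOpT_TW (hl : l.Prime) (hlN : ¬ l ∣ q * M) (hl' : l'.Prime)
    (hlN' : ¬ l' ∣ q * M) (n : ℕ) :
    Commute ((heckeOpT q M hl hlN).TW n) ((heckeOpT q M hl' hlN').TW n) := by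
  refine AddMonoidHom.ext fun x => ?_
  obtain ⟨u, rfl⟩ := cls_surjective x
  show (heckeOpT q M hl hlN).TW n ((heckeOpT q M hl' hlN').TW n (cls u)) =
    (heckeOpT q M hl' hlN').TW n ((heckeOpT q M hl hlN).TW n (cls u))
  rw [HeckeOp1.TW_cls, HeckeOp1.TW_cls, HeckeOp1.TW_cls, HeckeOp1.TW_cls]
  refine congrArg cls (Subtype.ext (Units.ext ?_))
  show (heckeOpT q M hl hlN).T ((heckeOpT q M hl' hlN').T _) =
    (heckeOpT q M hl' hlN').T ((heckeOpT q M hl hlN).T _)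
  by_cases hne : l = l'
  · subst hne
    have e : (‹NeZero l› : NeZero l) = ‹NeZero l› := rfl
    rfl
  · exact heckeOpT_T_comm hl hlN hl' hlN' hne _

end Inst

end Fermat.Agent.S43.Ops

end
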